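import Mathlib.Data.Nat.Choose.Lucas
import Mathlib.Data.Nat.Factorization.Basic
import Mathlib.Tactic

/-!
# S16 / NoCong5: the arithmetic core (helper38)

For primes `p, ℓ ≥ 5`, `ℓ ≠ p`, there is an index `i = j + 1 ≤ p + 1` with `(ℓ - 1) ∤ 2 i` and
`ℓ ∤ p * C(p, i-1) - C(p, i) = (i - 1) * C(p + 1, i)`.

(The `i`-th elementary symmetric function of the `p + 1` conjugates of a form
`G ≡ c mod ℓ` of weight `2` is a level one form of weight `2 i` which is congruent to the constant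
`-(-c/p)^i (i-1) C(p+1,i)` modulo `ℓ`; Swinnerton-Dyer then forces `(ℓ - 1) ∣ 2 i`.)
-/

set_option autoImplicit false

namespace Fermat.Agent.S16.NC5

/-- Corollary of Lucas' theorem: `C(n, ℓ^s) ≡ ⌊n / ℓ^s⌋ mod ℓ`. -/
theorem choose_prime_pow_modEq (ℓ : ℕ) [Fact ℓ.Prime] (s : ℕ) :
    ∀ n : ℕ, Nat.choose n (ℓ ^ s) ≡ n / ℓ ^ s [MOD ℓ] := by
  induction s with
  | zero => intro n; simp [Nat.ModEq.refl]
  | succ s ih =>
    intro n
    have hℓ : 0 < ℓ := (Fact.out : ℓ.Prime).pos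
    have h := Choose.choose_modEq_choose_mod_mul_choose_div_nat (n := n) (k := ℓ ^ (s + 1)) (p := ℓ)
    have h1 : ℓ ^ (s + 1) % ℓ = 0 := by
      rw [pow_succ]; exact Nat.mul_mod_left _ _
    have h2 : ℓ ^ (s + 1) / ℓ = ℓ ^ s := by
      rw [pow_succ]; exact Nat.mul_div_cancel _ hℓ
    rw [h1, h2, Nat.choose_zero_right, one_mul] at h
    refine h.trans ((ih (n / ℓ)).trans ?_)
    rw [Nat.div_div_eq_div_mul, pow_succ']

/-- The binomial identity `p C(p, j) - C(p, j+1) = j C(p+1, j+1)`. -/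
theorem choose_identity (p j : ℕ) :
    (p : ℤ) * (p.choose j : ℤ) - (p.choose (j + 1) : ℤ) = (j : ℤ) * ((p + 1).choose (j + 1) : ℤ) := by
  have h1 : (p + 1) * p.choose j = (p + 1).choose (j + 1) * (j + 1) := Nat.add_one_mul_choose_eq p j
  have h2 : (p + 1).choose (j + 1) = p.choose j + p.choose (j + 1) := Nat.choose_succ_succ p j
  have h1' : ((p : ℤ) + 1) * (p.choose j : ℤ) = ((p + 1).choose (j + 1) : ℤ) * ((j : ℤ) + 1) := by
    exact_mod_cast h1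
  have h2' : ((p + 1).choose (j + 1) : ℤ) = (p.choose j : ℤ) + (p.choose (j + 1) : ℤ) := by
    exact_mod_cast h2
  linear_combination h1' + h2'

/-- `(ℓ - 1) ∤ 2 ℓ^s` for `ℓ ≥ 5`. -/
theorem not_sub_one_dvd_two_mul_pow (ℓ : ℕ) (h5 : 5 ≤ ℓ) (s : ℕ) :
    ¬ (((ℓ : ℤ) - 1) ∣ 2 * ((ℓ ^ s : ℕ) : ℤ)) := by
  intro h
  have h1 : ((ℓ : ℤ) - 1) ∣ (ℓ : ℤ) ^ s - 1 := by
    simpa using sub_dvd_pow_sub_pow (ℓ : ℤ) 1 s
  have h2 : ((ℓ : ℤ) - 1) ∣ 2 := by
    have h3 : (2 : ℤ) = 2 * ((ℓ ^ s : ℕ) : ℤ) - 2 * ((ℓ : ℤ) ^ s - 1) := by push_cast; ring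
    rw [h3]
    exact dvd_sub h (Dvd.dvd.mul_left h1 2)
  have h4 : (ℓ : ℤ) - 1 ≤ 2 := Int.le_of_dvd (by norm_num) h2
  have : (5 : ℤ) ≤ (ℓ : ℤ) := by exact_mod_cast h5
  omega

/-- The index `i = ℓ^s` works as soon as `ℓ ∤ ⌊(p+1)/ℓ^s⌋`, `s ≥ 1`. -/
theorem index_pow (p ℓ : ℕ) (hℓ : ℓ.Prime) (h5 : 5 ≤ ℓ) (s : ℕ) (hs : 1 ≤ s)
    (hle : ℓ ^ s ≤ p + 1) (hnd : ¬ ℓ ∣ (p + 1) / ℓ ^ s) :
    ∃ j : ℕ, j ≤ p ∧ ¬ (((ℓ : ℤ) - 1) ∣ 2 * ((j + 1 : ℕ) : ℤ)) ∧
      ¬ ((ℓ : ℤ) ∣ (p : ℤ) * (p.choose j : ℤ) - (p.choose (j + 1) : ℤ)) := by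
  have : Fact ℓ.Prime := ⟨hℓ⟩
  have hpos : 1 ≤ ℓ ^ s := Nat.one_le_pow _ _ hℓ.pos
  obtain ⟨j, hj⟩ : ∃ j, ℓ ^ s = j + 1 := ⟨ℓ ^ s - 1, by omega⟩
  refine ⟨j, by omega, ?_, ?_⟩
  · rw [← hj]; exact not_sub_one_dvd_two_mul_pow ℓ h5 s
  rw [choose_identity]
  intro hdvd
  have hdvd' : ℓ ∣ j * (p + 1).choose (j + 1) := by exact_mod_cast hdvd
  rcases (Nat.Prime.dvd_mul hℓ).1 hdvd' with h | h
  · -- ℓ ∣ j = ℓ^s - 1, impossible
    have h1 : ℓ ∣ ℓ ^ s := dvd_pow_self ℓ (by omega)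
    rw [hj] at h1
    have h2 : ℓ ∣ 1 := (Nat.dvd_add_right h).1 h1
    exact hℓ.one_lt.ne' (Nat.dvd_one.1 h2)
  · -- ℓ ∣ C(p+1, ℓ^s) ≡ (p+1)/ℓ^s
    rw [← hj] at h
    have hmod := choose_prime_pow_modEq ℓ s (p + 1)
    have h0 : (p + 1).choose (ℓ ^ s) ≡ 0 [MOD ℓ] := (Nat.modEq_zero_iff_dvd).2 h
    have h1 : (p + 1) / ℓ ^ s ≡ 0 [MOD ℓ] := hmod.symm.trans h0
    exact hnd ((Nat.modEq_zero_iff_dvd).1 h1)

/-- **Arithmetic core of NoCong5.**  (`i = j + 1` is the index of the elementary symmetric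
function.) -/
theorem exists_index (p ℓ : ℕ) (hp : p.Prime) (hp5 : 5 ≤ p) (hℓ : ℓ.Prime) (h5 : 5 ≤ ℓ)
    (hℓp : ℓ ≠ p) :
    ∃ j : ℕ, j ≤ p ∧ ¬ (((ℓ : ℤ) - 1) ∣ 2 * ((j + 1 : ℕ) : ℤ)) ∧
      ¬ ((ℓ : ℤ) ∣ (p : ℤ) * (p.choose j : ℤ) - (p.choose (j + 1) : ℤ)) := by
  have hℓndp : ¬ ℓ ∣ p := fun h => hℓp ((Nat.prime_dvd_prime_iff_eq hℓ hp).1 h)
  by_cases hp1 : ℓ ∣ p + 1
  · -- case 1: ℓ ∣ p + 1, i = ℓ^s with ℓ^s ∥ p + 1
    obtain ⟨s, t, ht, hst⟩ := Nat.exists_eq_pow_mul_and_not_dvd (n := p + 1) (by omega) ℓ hℓ.ne_one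
    have hs : 1 ≤ s := by
      rcases Nat.eq_zero_or_pos s with h | h
      · exfalso; rw [h, pow_zero, one_mul] at hst; exact ht (hst ▸ hp1)
      · exact h
    have hpow : 0 < ℓ ^ s := Nat.pos_of_ne_zero (pow_ne_zero _ hℓ.ne_zero)
    have ht0 : 0 < t := by
      rcases Nat.eq_zero_or_pos t with h | h
      · exfalso; rw [h, mul_zero] at hst; omega
      · exact h
    refine index_pow p ℓ hℓ h5 s hs ?_ ?_
    · rw [hst]; exact Nat.le_mul_of_pos_right _ ht0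
    · rw [hst, Nat.mul_div_cancel_left _ hpow]; exact ht
  · by_cases h7 : 7 ≤ ℓ
    · -- case 2a: i = 2
      refine ⟨1, by omega, ?_, ?_⟩
      · intro h
        have h4 : (ℓ : ℤ) - 1 ≤ 2 * ((1 + 1 : ℕ) : ℤ) := Int.le_of_dvd (by norm_num) h
        have : (7 : ℤ) ≤ (ℓ : ℤ) := by exact_mod_cast h7
        push_cast at h4
        omega
      · rw [choose_identity]
        intro hdvd
        have hdvd' : ℓ ∣ 1 * (p + 1).choose (1 + 1) := by exact_mod_cast hdvd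
        rw [one_mul] at hdvd'
        have h2 : (p + 1) * p.choose 1 = (p + 1).choose (1 + 1) * (1 + 1) :=
          Nat.add_one_mul_choose_eq p 1
        rw [Nat.choose_one_right] at h2
        have h3 : ℓ ∣ (p + 1) * p := by rw [h2]; exact Dvd.dvd.mul_right hdvd' _
        rcases (Nat.Prime.dvd_mul hℓ).1 h3 with h | h
        · exact hp1 h
        · exact hℓndp h
    · -- ℓ = 5
      have hℓ5 : ℓ = 5 := by
        have h6 : ℓ ≠ 6 := by rintro rfl; norm_num at hℓ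
        omega
      subst hℓ5
      by_cases hm1 : 5 ∣ p - 1
      · -- case 2b-ii: i = 5^s, 5^s ∥ p - 1
        obtain ⟨s, t, ht, hst⟩ :=
          Nat.exists_eq_pow_mul_and_not_dvd (n := p - 1) (by omega) 5 (by norm_num)
        have hs : 1 ≤ s := by
          rcases Nat.eq_zero_or_pos s with h | h
          · exfalso; rw [h, pow_zero, one_mul] at hst; exact ht (hst ▸ hm1)
          · exact h
        have hpow5 : 5 ≤ 5 ^ s := by
          calc 5 = 5 ^ 1 := by norm_num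
            _ ≤ 5 ^ s := Nat.pow_le_pow_right (by norm_num) hs
        have ht0 : 0 < t := by
          rcases Nat.eq_zero_or_pos t with h | h
          · exfalso; rw [h, mul_zero] at hst; omega
          · exact h
        have hp1' : p + 1 = 5 ^ s * t + 2 := by omega
        refine index_pow p 5 hℓ h5 s hs ?_ ?_
        · rw [hp1']
          have : 5 ^ s ≤ 5 ^ s * t := Nat.le_mul_of_pos_right _ ht0
          omega
        · have hdiv : (p + 1) / 5 ^ s = t := by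
            rw [hp1', Nat.mul_add_div (by omega : 5 ^ s > 0)]
            have : 2 / 5 ^ s = 0 := Nat.div_eq_of_lt (by omega)
            omega
          rw [hdiv]; exact ht
      · -- case 2b-i: i = 3
        refine ⟨2, by omega, by norm_num, ?_⟩
        rw [choose_identity]
        intro hdvd
        have hdvd' : 5 ∣ 2 * (p + 1).choose (2 + 1) := by exact_mod_cast hdvd
        -- 3 * (2 * C(p+1,3)) = (p+1) p (p-1)
        have h2 : (p + 1) * p.choose 2 = (p + 1).choose (2 + 1) * (2 + 1) :=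
          Nat.add_one_mul_choose_eq p 2
        obtain ⟨q, hq⟩ : ∃ q, p = q + 1 := ⟨p - 1, by omega⟩
        have h3 : (q + 1) * q.choose 1 = (q + 1).choose (1 + 1) * (1 + 1) :=
          Nat.add_one_mul_choose_eq q 1
        rw [Nat.choose_one_right] at h3
        have h4 : 5 ∣ (p + 1) * (p * (p - 1)) := by
          have : (p + 1) * (p * (p - 1)) = 3 * (2 * (p + 1).choose (2 + 1)) := by
            subst hq
            simp only [Nat.add_sub_cancel]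
            calc (q + 1 + 1) * ((q + 1) * q)
                = (q + 1 + 1) * ((q + 1).choose (1 + 1) * (1 + 1)) := by rw [h3]
              _ = ((q + 1 + 1) * (q + 1).choose 2) * 2 := by ring
              _ = ((q + 1 + 1).choose (2 + 1) * (2 + 1)) * 2 := by rw [h2]
              _ = 3 * (2 * (q + 1 + 1).choose (2 + 1)) := by ring
          rw [this]; exact Dvd.dvd.mul_left hdvd' 3
        rcases (Nat.Prime.dvd_mul hℓ).1 h4 with h | h
        · exact hp1 h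
        · rcases (Nat.Prime.dvd_mul hℓ).1 h with h | h
          · exact hℓndp h
          · exact hm1 h

end Fermat.Agent.S16.NC5
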