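import Fermat.Agent.S16.ToolkitAlg.Integral
import Fermat.Agent.S16.NoCong5.Arith

/-!
# S16 / NoCong5: the core argument (helper38)

`G ∈ M₂(Γ₀(p))` with integral `q`-expansion, `ℓ ∣ a_n` for `n ≥ 1` and `ℓ ∤ a₀`
(`ℓ ≥ 5`, `ℓ ≠ p`) does not exist: the `i`-th elementary symmetric function of the `p + 1`
conjugates is a level one form of weight `2 i`, congruent mod `ℓ` to the constant
`-(-a₀/p)^i (i - 1) C(p + 1, i)`; for the index `i` of `NC5.exists_index` this is a unit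
constant and `(ℓ - 1) ∤ 2 i`, against Swinnerton-Dyer.
-/

set_option autoImplicit false

namespace Fermat.Agent.S16.NC5

open ModularCurve CuspForm UpperHalfPlane ModularFormClass
open scoped MatrixGroups

noncomputable section

/-- The `ℓ`-integral rational numbers inside `ℂ`. -/
def Rl (ℓ : ℕ) (hℓ : ℓ.Prime) : Subring ℂ where
  carrier := {x | ∃ (n : ℤ) (d : ℕ), ¬ ℓ ∣ d ∧ x * (d : ℂ) = (n : ℂ)}
  mul_mem' := by
    rintro x y ⟨n, d, hd, hx⟩ ⟨m, e, he, hy⟩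
    refine ⟨n * m, d * e, ?_, ?_⟩
    · intro h
      rcases (Nat.Prime.dvd_mul hℓ).1 h with h | h
      · exact hd h
      · exact he h
    · push_cast
      rw [← hx, ← hy]; ring
  one_mem' := ⟨1, 1, hℓ.not_dvd_one, by simp⟩
  add_mem' := by
    rintro x y ⟨n, d, hd, hx⟩ ⟨m, e, he, hy⟩
    refine ⟨n * e + m * d, d * e, ?_, ?_⟩
    · intro h
      rcases (Nat.Prime.dvd_mul hℓ).1 h with h | h
      · exact hd h
      · exact he h
    · push_cast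
      rw [← hx, ← hy]; ring
  zero_mem' := ⟨0, 1, hℓ.not_dvd_one, by simp⟩
  neg_mem' := by
    rintro x ⟨n, d, hd, hx⟩
    exact ⟨-n, d, hd, by push_cast; rw [← hx]; ring⟩

/-- The multiples of `ℓ` in `Rl ℓ`. -/
def Jl (ℓ : ℕ) (hℓ : ℓ.Prime) : AddSubgroup ℂ where
  carrier := {x | ∃ (n : ℤ) (d : ℕ), ¬ ℓ ∣ d ∧ x * (d : ℂ) = (ℓ : ℂ) * (n : ℂ)}
  add_mem' := by
    rintro x y ⟨n, d, hd, hx⟩ ⟨m, e, he, hy⟩
    refine ⟨n * e + m * d, d * e, ?_, ?_⟩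
    · intro h
      rcases (Nat.Prime.dvd_mul hℓ).1 h with h | h
      · exact hd h
      · exact he h
    · push_cast
      linear_combination (e : ℂ) * hx + (d : ℂ) * hy
  zero_mem' := ⟨0, 1, hℓ.not_dvd_one, by simp⟩
  neg_mem' := by
    rintro x ⟨n, d, hd, hx⟩
    exact ⟨-n, d, hd, by push_cast; linear_combination -hx⟩

theorem Rl_mul_Jl (ℓ : ℕ) (hℓ : ℓ.Prime) :
    ∀ r ∈ Rl ℓ hℓ, ∀ x ∈ Jl ℓ hℓ, r * x ∈ Jl ℓ hℓ := by
  rintro r ⟨n, d, hd, hr⟩ x ⟨m, e, he, hx⟩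
  refine ⟨n * m, d * e, ?_, ?_⟩
  · intro h
    rcases (Nat.Prime.dvd_mul hℓ).1 h with h | h
    · exact hd h
    · exact he h
  · push_cast
    linear_combination (x * (e : ℂ)) * hr + (n : ℂ) * hx

theorem Jl_le_Rl (ℓ : ℕ) (hℓ : ℓ.Prime) : Jl ℓ hℓ ≤ (Rl ℓ hℓ).toAddSubgroup := by
  rintro x ⟨n, d, hd, hx⟩
  exact ⟨ℓ * n, d, hd, by push_cast; exact hx⟩

/-- Extraction of a rational number from `x * d = M`. -/
theorem exists_rat (ℓ : ℕ) (x : ℂ) (M : ℤ) (d : ℕ) (hd : ¬ ℓ ∣ d)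
    (hx : x * (d : ℂ) = (M : ℂ)) :
    ∃ q : ℚ, x = (q : ℂ) ∧ ¬ ℓ ∣ q.den ∧ q.num * (d : ℤ) = M * (q.den : ℤ) := by
  have hd0 : d ≠ 0 := by
    rintro rfl
    exact hd (dvd_zero _)
  have hdC : (d : ℂ) ≠ 0 := by exact_mod_cast hd0
  have hdQ : (d : ℚ) ≠ 0 := by exact_mod_cast hd0
  refine ⟨(M : ℚ) / (d : ℚ), ?_, ?_, ?_⟩
  · push_cast
    rw [eq_div_iff hdC, hx]
  · intro h
    have h1 : (((M : ℚ) / (d : ℚ)).den : ℤ) ∣ (d : ℤ) := by
      have := Rat.den_dvd M (d : ℤ)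
      rwa [Rat.divInt_eq_div] at this
      
    have h2 : (ℓ : ℤ) ∣ (d : ℤ) := dvd_trans (by exact_mod_cast h) h1
    exact hd (by exact_mod_cast h2)
  · set q : ℚ := (M : ℚ) / (d : ℚ) with hq
    have h1 : q * (d : ℚ) = (M : ℚ) := by
      rw [hq]; field_simp
    have h2 : (q.num : ℚ) = q * (q.den : ℚ) := (Rat.mul_den_eq_num q).symm
    have h3 : ((q.num * (d : ℤ) : ℤ) : ℚ) = ((M * (q.den : ℤ) : ℤ) : ℚ) := by
      push_cast
      rw [h2, ← h1]; ring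
    exact_mod_cast h3

/-- If `x * d = ℓ * m` with `ℓ ∤ d`, then `x` is a rational number with `ℓ ∤ den`, `ℓ ∣ num`. -/
theorem exists_rat_dvd (ℓ : ℕ) (hℓ : ℓ.Prime) (x : ℂ) (hx : x ∈ Jl ℓ hℓ) :
    ∃ q : ℚ, x = (q : ℂ) ∧ ¬ ℓ ∣ q.den ∧ (ℓ : ℤ) ∣ q.num := by
  obtain ⟨m, d, hd, hxd⟩ := hx
  obtain ⟨q, hq1, hq2, hq3⟩ := exists_rat ℓ x ((ℓ : ℤ) * m) d hd (by push_cast; exact hxd)
  refine ⟨q, hq1, hq2, ?_⟩
  have h1 : (ℓ : ℤ) ∣ q.num * (d : ℤ) := ⟨m * (q.den : ℤ), by rw [hq3]; ring⟩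
  rcases Int.Prime.dvd_mul' hℓ h1 with h | h
  · exact h
  · exact absurd (by exact_mod_cast h) hd

/-- If `x * d = M` with `ℓ ∤ d`, `ℓ ∤ M`, then `x` is a rational number with `ℓ ∤ den`,
`ℓ ∤ num`. -/
theorem exists_rat_not_dvd (ℓ : ℕ) (hℓ : ℓ.Prime) (x : ℂ) (M : ℤ) (d : ℕ) (hd : ¬ ℓ ∣ d)
    (hM : ¬ (ℓ : ℤ) ∣ M) (hx : x * (d : ℂ) = (M : ℂ)) :
    ∃ q : ℚ, x = (q : ℂ) ∧ ¬ ℓ ∣ q.den ∧ ¬ (ℓ : ℤ) ∣ q.num := by
  obtain ⟨q, hq1, hq2, hq3⟩ := exists_rat ℓ x M d hd hx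
  refine ⟨q, hq1, hq2, ?_⟩
  intro h
  have h1 : (ℓ : ℤ) ∣ M * (q.den : ℤ) := by
    rw [← hq3]; exact Dvd.dvd.mul_right h _
  rcases Int.Prime.dvd_mul' hℓ h1 with h | h
  · exact hM h
  · exact hq2 (by exact_mod_cast h)

/-! ### The constant term of the elementary symmetric functions -/

theorem esymm_replicate {S : Type*} [CommSemiring S] (b : S) :
    ∀ m n : ℕ, (Multiset.replicate m b).esymm n = (m.choose n : S) * b ^ n := by
  intro m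
  induction m with
  | zero =>
    intro n
    cases n with
    | zero => simp [esymm_zero']
    | succ n => simp [Multiset.esymm, Multiset.powersetCard_zero_right]
  | succ m ih =>
    intro n
    cases n with
    | zero => simp [esymm_zero']
    | succ n =>
      rw [Multiset.replicate_succ, esymm_cons, ih, ih, Nat.choose_succ_succ]
      push_cast
      ring

theorem esymm_map_hom {R S : Type*} [CommSemiring R] [CommSemiring S] (f : R →+* S)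
    (s : Multiset R) (n : ℕ) : f (s.esymm n) = (s.map f).esymm n := by
  simp only [Multiset.esymm, Multiset.powersetCard_map, map_multiset_sum, Multiset.map_map,
    Function.comp_def, map_multiset_prod]

theorem map_constantCoeff_conjSeries (p : ℕ) (hp : p ≠ 0) (A B : PowerSeries ℂ) :
    (conjSeries p hp A B).map (PowerSeries.constantCoeff (R := ℂ)) =
      PowerSeries.constantCoeff A ::ₘ Multiset.replicate p (PowerSeries.constantCoeff B) := by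
  unfold conjSeries
  rw [Multiset.map_cons, Multiset.map_map, PowerSeries.constantCoeff_expand]
  congr 1
  have h : ∀ j : ℕ, (PowerSeries.constantCoeff (R := ℂ))
      (PowerSeries.rescale (zetaP p ^ j) B) = PowerSeries.constantCoeff B := by
    intro j
    rw [← PowerSeries.coeff_zero_eq_constantCoeff_apply,
      ← PowerSeries.coeff_zero_eq_constantCoeff_apply, PowerSeries.coeff_rescale, pow_zero,
      one_mul]
  simp only [Function.comp_def, h]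
  rw [Multiset.map_const', Multiset.card_range]

theorem coeff_zero_esymm_conjSeries (p : ℕ) (hp : p ≠ 0) (A B : PowerSeries ℂ) (j : ℕ) :
    PowerSeries.coeff 0 ((conjSeries p hp A B).esymm (j + 1)) =
      (p.choose (j + 1) : ℂ) * (PowerSeries.coeff 0 B) ^ (j + 1) +
        PowerSeries.coeff 0 A * ((p.choose j : ℂ) * (PowerSeries.coeff 0 B) ^ j) := by
  rw [PowerSeries.coeff_zero_eq_constantCoeff_apply, PowerSeries.coeff_zero_eq_constantCoeff_apply,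
    PowerSeries.coeff_zero_eq_constantCoeff_apply, esymm_map_hom,
    map_constantCoeff_conjSeries, esymm_cons, esymm_replicate, esymm_replicate]

/-- The algebra behind the constant term. -/
theorem const_term_aux (P a0 : ℂ) (hP : P ≠ 0) (C0 C1 : ℂ) (j : ℕ) :
    (C1 * (-(P⁻¹) * a0) ^ (j + 1) + a0 * (C0 * (-(P⁻¹) * a0) ^ j)) * P ^ (j + 1) =
      (-a0) ^ j * a0 * (P * C0 - C1) := by
  have h1 : (-(P⁻¹) * a0) ^ j * P ^ j = (-a0) ^ j := by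
    rw [← mul_pow]
    congr 1
    field_simp
  have h2 : P⁻¹ * P = 1 := inv_mul_cancel₀ hP
  rw [pow_succ, pow_succ]
  linear_combination (a0 * (P * C0 - C1)) * h1 +
    ((-(P⁻¹) * a0) ^ j * P ^ j * (-C1 * a0)) * h2

/-! ### The main statement -/

theorem noCong_core (p : ℕ) (hpP : p.Prime) (hp5 : 5 ≤ p) (ℓ : ℕ) (hℓ : ℓ.Prime) (h5 : 5 ≤ ℓ)
    (hℓp : ℓ ≠ p) (T : CuspZeroData p hpP.ne_zero) (hS : SwDConst ℓ) :
    NoCong p ℓ 1 := by
  have hp0 : p ≠ 0 := hpP.ne_zero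
  have hpC : (p : ℂ) ≠ 0 := by exact_mod_cast hp0
  intro G a ha hdiv
  by_contra h0
  obtain ⟨j, _, hj1, hj2⟩ := exists_index p ℓ hpP hp5 hℓ h5 hℓp
  obtain ⟨e, he⟩ := T.esymm_conj 2 G (j + 1)
  have hAc : ∀ n, (qExpansion 1 G).coeff n = (a n : ℂ) := fun n => ha n
  have hBc : ∀ n, (T.Z 2 G).coeff n = -((p : ℂ)⁻¹) * (a (p * n) : ℂ) := fun n => by
    rw [T.coeff_Z_two G n, hAc]
  have hℓp' : ¬ ℓ ∣ p := fun h => hℓp ((Nat.prime_dvd_prime_iff_eq hℓ hpP).1 h)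
  have hA0 : (qExpansion 1 G).coeff 0 ∈ Rl ℓ hℓ :=
    ⟨a 0, 1, hℓ.not_dvd_one, by rw [hAc]; simp⟩
  have hB0 : (T.Z 2 G).coeff 0 ∈ Rl ℓ hℓ :=
    ⟨-a 0, p, hℓp', by rw [hBc, Nat.mul_zero]; push_cast; field_simp⟩
  have hAn : ∀ n, 1 ≤ n → (qExpansion 1 G).coeff n ∈ Jl ℓ hℓ := by
    intro n hn
    obtain ⟨m, hm⟩ := hdiv n hn
    refine ⟨m, 1, hℓ.not_dvd_one, ?_⟩
    rw [hAc, hm]; push_cast; ring
  have hBn : ∀ n, 1 ≤ n → (T.Z 2 G).coeff n ∈ Jl ℓ hℓ := by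
    intro n hn
    obtain ⟨m, hm⟩ := hdiv (p * n) (Nat.mul_pos hpP.pos hn)
    refine ⟨-m, p, hℓp', ?_⟩
    rw [hBc, hm]; push_cast; field_simp
  have key := esymm_conjSeries_coeff_mem_ideal p hp0 (Rl ℓ hℓ) (Jl ℓ hℓ) (Rl_mul_Jl ℓ hℓ)
    (Jl_le_Rl ℓ hℓ) (qExpansion 1 G) (T.Z 2 G) hA0 hB0 hAn hBn (j + 1)
  have hec : ∀ n, (qExpansion 1 e).coeff n =
      ((conjSeries p hp0 (qExpansion 1 G) (T.Z 2 G)).esymm (j + 1)).coeff (p * n) := by
    intro n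
    rw [← he, PowerSeries.coeff_expand_mul]
  -- the constant term
  have hc0 : (qExpansion 1 e).coeff 0 * ((p ^ (j + 1) : ℕ) : ℂ) =
      (((-a 0) ^ j * a 0 * ((p : ℤ) * (p.choose j : ℤ) - (p.choose (j + 1) : ℤ)) : ℤ) : ℂ) := by
    rw [hec 0, Nat.mul_zero, coeff_zero_esymm_conjSeries, hBc 0, hAc 0, Nat.mul_zero]
    push_cast
    exact const_term_aux (p : ℂ) (a 0 : ℂ) hpC _ _ j
  have hM : ¬ (ℓ : ℤ) ∣ (-a 0) ^ j * a 0 * ((p : ℤ) * (p.choose j : ℤ) - (p.choose (j + 1) : ℤ)) := by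
    intro h
    rcases Int.Prime.dvd_mul' hℓ h with h | h
    · rcases Int.Prime.dvd_mul' hℓ h with h | h
      · have := Int.Prime.dvd_pow' hℓ h
        exact h0 ((dvd_neg).1 this)
      · exact h0 h
    · exact hj2 h
  have hd : ¬ ℓ ∣ p ^ (j + 1) := fun h => hℓp' (hℓ.dvd_of_dvd_pow h)
  have hex : ∀ n : ℕ, ∃ q : ℚ, (qExpansion 1 e).coeff n = (q : ℂ) ∧ ¬ ℓ ∣ q.den ∧
      (1 ≤ n → (ℓ : ℤ) ∣ q.num) ∧ (n = 0 → ¬ (ℓ : ℤ) ∣ q.num) := by
    intro n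
    rcases Nat.eq_zero_or_pos n with hn | hn
    · subst hn
      obtain ⟨q, hq1, hq2, hq3⟩ := exists_rat_not_dvd ℓ hℓ _ _ _ hd hM hc0
      exact ⟨q, hq1, hq2, fun h => absurd h (by norm_num), fun _ => hq3⟩
    · have hmem : (qExpansion 1 e).coeff n ∈ Jl ℓ hℓ := by
        rw [hec n]
        exact key.2 (p * n) (Nat.mul_pos hpP.pos hn)
      obtain ⟨q, hq1, hq2, hq3⟩ := exists_rat_dvd ℓ hℓ _ hmem
      exact ⟨q, hq1, hq2, fun _ => hq3, fun h => absurd h (Nat.pos_iff_ne_zero.1 hn)⟩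
  choose a' ha'1 ha'2 ha'3 ha'4 using hex
  exact hj1 (hS _ e a' ha'1 ha'2 ha'3 (ha'4 0 rfl))

end

end Fermat.Agent.S16.NC5
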